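/-
PROJECT R (S43), block T1, brick (FU) AT `E = ℚ̄(X₀(M q))` (helper18): **THE UNSQUARED FROBENIUS
RELATION ON THE ONE-UNITS OF BOTH GAUSS RINGS**, in divisor language and in function language.

`g := σ_E ∘ w_q`, `σ` a Frobenius lift at `A ∣ q`, `w_q` the Atkin-Lehner involution.  In main's
nodal datum of `X₀(M q)` (`S34/CoreZX0Datum.X0Datum` with the structural facts `S34/CoreZX0Ext.X0Ext`)
the second component is the `w_q`-transport of the first one and the nodes satisfy `e₁ = Fr e₂`,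
`Fr² = 1` on them; hence `g` EXCHANGES the two Gauss rings, acts between the two residue function
fields through the coefficientwise `q`-Frobenius, fixes every node and raises the values at the
nodes to the `q`-th power: the hypotheses of `T1/Frob/GlueSwap.principal_of_swap`.

* `mem_of_smul_mem_swap` (abstract) : twin of `S35/FrobZX0Datum.mem_of_smul_mem_twist`;
* `frobOne`, `hasValue_frobOne` : the coefficientwise `q`-Frobenius and its value rule;
* `swap_smul₁₂`, `swap_smul₂₁` : the ring side (single step of `S34/DecompX0.branch_smul₁`);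
* `swap_r₁₂`, `swap_r₂₁` : the place side (single step of `S35/FrobSp`);
* `principal_of_ext` : `g • D + q • D` principal, from `X0Ext` + the node relation;
* `mul_pow_eq_const_mul_pow_of_principal` : the dictionary;
* `swapZ_of_ext` : `σ_E (w_q u) * u ^ q = c * h ^ (p ^ k)`.
-/
import Fermat.Agent.S34.CoreZX0Ext
import Fermat.Agent.S34.DecompX0
import Fermat.Agent.S34.EulerX0
import Fermat.Agent.S35.FrobSp
import Fermat.Agent.S35.FrobZX0Datum
import Fermat.Agent.S35.FrobZOfPrincipal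
import Fermat.Agent.S43.T1.Frob.GlueSwap

set_option autoImplicit false
set_option linter.unusedSectionVars false
set_option linter.unusedVariables false
set_option linter.style.haveILetI false
set_option synthInstance.maxHeartbeats 400000

noncomputable section

namespace Fermat.Agent.S43.T1.Frob.SwapX0

open ModularCurve AlgebraicCurve IsLocalRing
open Fermat.Agent.S18.NonSpecial Fermat.Agent.S34.NodalDefs
open Fermat.Agent.S34.Z1X0 Fermat.Agent.S34.Z1Abstract
open Fermat.Agent.S34.CoreZX0Datum Fermat.Agent.S34.CoreZX0Ext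

local notation "Kb" => AlgebraicClosure ℚ

/-! ### Abstract part -/

section Branch

variable {L : Type*} [Field L] {k : Type*} [Field k] {A' : ValuationSubring L} {π : A' →+* k}
variable {FL : Type*} [Field FL] [Algebra L FL] {Fk : Type*} [Field Fk] [Algebra k Fk]
  {Fk' : Type*} [Field Fk'] [Algebra k Fk']

/-- an automorphism which maps a branch `R'` into a branch `R` and acts on the reductions through a
ring homomorphism also reflects membership (swap twin of
`S35/FrobZX0Datum.mem_of_smul_mem_twist`) -/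
theorem mem_of_smul_mem_swap (R : Branch A' π FL Fk) (R' : Branch A' π FL Fk')
    (g : SemilinearAut L FL) (Ψ : Fk' →+* Fk)
    (hg : ∀ y : R'.O, ∃ h : g • ((y : R'.O) : FL) ∈ R.O, R.red ⟨_, h⟩ = Ψ (R'.red y))
    (y : FL) (hy : g • y ∈ R.O) : y ∈ R'.O := by
  by_contra hcon
  have hy0 : y ≠ 0 := fun h => hcon (h ▸ R'.O.zero_mem)
  have hinv : y⁻¹ ∈ R'.O := (R'.O.mem_or_inv_mem y).resolve_left hcon
  have hnu : ¬ IsUnit (⟨y⁻¹, hinv⟩ : R'.O) := by
    rintro ⟨v, hv⟩
    apply hcon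
    have h1 : ((v : R'.O) : FL) = y⁻¹ := by rw [hv]
    have h2 : ((v : R'.O) : FL) * ((↑(v⁻¹) : R'.O) : FL) = 1 := by
      have h0 : ((v : R'.O) * (↑(v⁻¹) : R'.O) : R'.O) = 1 := Units.mul_inv v
      exact congrArg (fun z : R'.O => (z : FL)) h0
    rw [h1] at h2
    have h3 : ((↑(v⁻¹) : R'.O) : FL) = y := by
      have := eq_inv_of_mul_eq_one_right h2
      rwa [inv_inv] at this
    rw [← h3]
    exact ((↑(v⁻¹) : R'.O)).2
  obtain ⟨h', hred⟩ := hg ⟨y⁻¹, hinv⟩
  rw [(R'.red_eq_zero_iff _).mpr hnu, map_zero] at hred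
  have hnu' : ¬ IsUnit (⟨g • y⁻¹, h'⟩ : R.O) := (R.red_eq_zero_iff _).mp hred
  apply hnu'
  refine ⟨⟨⟨g • y⁻¹, h'⟩, ⟨g • y, hy⟩, ?_, ?_⟩, rfl⟩
  · apply Subtype.ext
    show g • y⁻¹ * g • y = 1
    rw [← smul_mul', inv_mul_cancel₀ hy0, smul_one]
  · apply Subtype.ext
    show g • y * g • y⁻¹ = 1
    rw [← smul_mul', mul_inv_cancel₀ hy0, smul_one]

/-- **Dictionary** (twin of `S35/FrobZOfPrincipal.eq_const_mul_pow_mul_pow_of_principal`): if
`div u = n D` and `g • D + Q • D` is the divisor of `h`, then `g • u * u ^ Q = c · h ^ n` with `c` a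
nonzero constant. -/
theorem mul_pow_eq_const_mul_pow_of_principal {K F : Type*} [Field K] [Field F] [Algebra K F]
    (hconst : ∀ f : F, f ≠ 0 → (∀ w : Place K F, w.ord f = 0) →
      ∃ c : K, c ≠ 0 ∧ f = algebraMap K F c)
    (g : SemilinearAut K F) (n Q : ℕ) {u : F} (hu : u ≠ 0) {D : Divisor K F}
    (hD : ∀ w : Place K F, w.ord u = n * D w)
    {h : F} (hh : h ≠ 0) (hdiv : ∀ w : Place K F, (g • D + Q • D) w = w.ord h) :
    ∃ c : K, c ≠ 0 ∧ g • u * u ^ Q = algebraMap K F c * h ^ n := by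
  have hgu : g • u ≠ 0 := by
    intro h0
    apply hu
    have := congrArg (fun x => g⁻¹ • x) h0
    simpa using this
  have hnum : g • u * u ^ Q ≠ 0 := mul_ne_zero hgu (pow_ne_zero Q hu)
  have hden : h ^ n ≠ 0 := pow_ne_zero n hh
  have hq : g • u * u ^ Q / h ^ n ≠ 0 := div_ne_zero hnum hden
  obtain ⟨c, hc, hcq⟩ := hconst (g • u * u ^ Q / h ^ n) hq (fun w => by
    rw [Fermat.Agent.S34.CoreZOfPrincipal.ord_div' w hnum hden, w.ord_mul hgu (pow_ne_zero Q hu),
      Fermat.Agent.S34.KummerZ.ord_pow, Fermat.Agent.S34.KummerZ.ord_pow, ← hdiv w,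
      Fermat.Agent.S34.KummerZ.ord_smul_eq, hD, hD, Finsupp.add_apply,
      SemilinearAut.divisor_smul_apply, Finsupp.smul_apply, nsmul_eq_mul]
    ring)
  refine ⟨c, hc, ?_⟩
  rw [← hcq, div_mul_cancel₀ _ hden]

end Branch

/-! ### The coefficientwise `q`-Frobenius -/

section FrobOne

open Fermat.Agent.S37.Equivariance.CoeffAut Fermat.Agent.S34.FrobK Fermat.Agent.S34.DecompX0

variable (k : Type*) [Field k] (N : ℕ) [NeZero N]
variable (q : ℕ) [hq : Fact q.Prime] [CharP k q] [PerfectField k]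

/-- **the value rule for one Frobenius step**: the coefficientwise `q`-Frobenius sends a value `c`
at `Q` to the value `c ^ q` at `Fr Q`. -/
theorem hasValue_frob_one (Q Q' : Place k ↥(modularFunctionFieldFullC k N))
    (hQ : Fr k N q Q = Q') (z : ↥(modularFunctionFieldFullC k N)) (c : k)
    (h : HasValue Q z c) :
    HasValue Q' (coeffRingAut k N (frobAut k q) z) (c ^ q) := by
  have := hasValue_coeffRingAut k N (frobAut k q) Q z c h
  rw [frobAut_apply] at this
  rw [← hQ]
  exact this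

end FrobOne

/-! ### The instance at `X₀(M q)` -/

section X0

open Fermat.Agent.S37.Gauss.Datum
open Fermat.Agent.S37.Equivariance.CoeffAut Fermat.Agent.S37.Equivariance.GaussEquiv
open Fermat.Agent.S34.Generic.SmoothRedOfGeneric Fermat.Agent.S34.Generic.RestrAlong
open Fermat.Agent.S34.WqGalois Fermat.Agent.S34.FrobK Fermat.Agent.S34.DecompX0
open Fermat.Agent.S34.EulerX0

variable {q : ℕ} [hq : Fact q.Prime] {M : ℕ} [NeZero M] {A : ValuationSubring Kb} [NeZero q]
variable [CharP (ResidueField ↥A) q] [PerfectField (ResidueField ↥A)]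

/-- the coefficientwise `q`-Frobenius of `F_k(M)`, as a ring endomorphism -/
def frobOne : ↥(modularFunctionFieldFullC (ResidueField ↥A) M) →+*
    ↥(modularFunctionFieldFullC (ResidueField ↥A) M) :=
  ((coeffRingAut (ResidueField ↥A) M (frobAut (ResidueField ↥A) q) : _ ≃+* _) : _ →+* _)

theorem frobOne_apply (z : ↥(modularFunctionFieldFullC (ResidueField ↥A) M)) :
    frobOne (q := q) (M := M) (A := A) z =
      coeffRingAut (ResidueField ↥A) M (frobAut (ResidueField ↥A) q) z := rfl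

/-- the value rule of `frobOne` between `Q` and `Fr Q` -/
theorem hasValue_frobOne
    (Q Q' : Place (ResidueField ↥A) ↥(modularFunctionFieldFullC (ResidueField ↥A) M))
    (hQ : Fr (ResidueField ↥A) M q Q = Q')
    (z : ↥(modularFunctionFieldFullC (ResidueField ↥A) M)) (c : ResidueField ↥A)
    (h : HasValue Q z c) : HasValue Q' (frobOne (q := q) (M := M) (A := A) z) (c ^ q) :=
  hasValue_frob_one (ResidueField ↥A) M q Q Q' hQ z c h

variable (hA : A.LiesOverPrime q) (hqM : ¬ q ∣ M)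

/-- `w_q` is an involution, as a semilinear automorphism -/
theorem wqAut_mul_self : wqAut hqM * wqAut hqM = 1 := by
  have h : wq M q hq.out hqM * wq M q hq.out hqM = 1 := by
    refine AlgEquiv.ext fun x => ?_
    rw [AlgEquiv.mul_apply, wq_wq, AlgEquiv.one_apply]
  unfold wqAut
  rw [← map_mul, h, map_one]

theorem wqAut_smul_smul {X : Type*} [MulAction (SemilinearAut Kb ↥(modularFunctionFieldBar (M * q))) X]
    (P : X) : wqAut hqM • wqAut hqM • P = P := by
  rw [← mul_smul, wqAut_mul_self, one_smul]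

/-- the composite `g = σ_E ∘ w_q` on functions -/
theorem swap_smul_apply (σ : Kb ≃ₐ[ℚ] Kb) (y : ↥(modularFunctionFieldBar (M * q))) :
    (arithmeticGalois (modularFunctionFieldFull (M * q)) σ * wqAut hqM) • y =
      arithmeticGalois (modularFunctionFieldFull (M * q)) σ • wq M q hq.out hqM y := by
  rw [mul_smul, wqAut_smul]

/-- `w_q (g y) = σ_E y` -/
theorem wq_swap_smul (σ : Kb ≃ₐ[ℚ] Kb) (y : ↥(modularFunctionFieldBar (M * q))) :
    wq M q hq.out hqM ((arithmeticGalois (modularFunctionFieldFull (M * q)) σ * wqAut hqM) • y) =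
      arithmeticGalois (modularFunctionFieldFull (M * q)) σ • y := by
  rw [swap_smul_apply, ← smul_wq, wq_wq]

variable {σ : Kb ≃ₐ[ℚ] Kb} (hσ : A.IsFrobeniusAt σ q)

include hσ in
/-- **ring side, first branch into the second** -/
theorem swap_smul₁₂
    (B : Branch A (residue ↥A) ↥(modularFunctionFieldBar (M * q))
      ↥(modularFunctionFieldFullC (ResidueField ↥A) M))
    (hO : B.O = V1X0 hA hqM)
    (hα : ∀ c : ↥(gaussDatum M A hA hqM).O,
      heckeAlphaBar Kb M q (c : ↥(modularFunctionFieldBar M)) ∈ B.O)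
    (hredα : ∀ c : ↥(gaussDatum M A hA hqM).O,
      B.red ⟨heckeAlphaBar Kb M q (c : ↥(modularFunctionFieldBar M)), hα c⟩ =
        (gaussDatum M A hA hqM).red c)
    (y : ↥B.O) :
    ∃ h : (arithmeticGalois (modularFunctionFieldFull (M * q)) σ * wqAut hqM) •
        (y : ↥(modularFunctionFieldBar (M * q))) ∈ (branchComap B (wq M q hq.out hqM)).O,
      (branchComap B (wq M q hq.out hqM)).red ⟨_, h⟩ = frobOne (q := q) (B.red y) := by
  obtain ⟨h, hred⟩ := branch_smul₁ hA hqM B hO hα hredα ⟨σ, hσ.mem_decompositionSubgroup⟩ y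
  rw [resAut_eq_frobAut A q hσ] at hred
  have heq := wq_swap_smul hqM σ (y : ↥(modularFunctionFieldBar (M * q)))
  have hmem : wq M q hq.out hqM ((arithmeticGalois (modularFunctionFieldFull (M * q)) σ *
      wqAut hqM) • (y : ↥(modularFunctionFieldBar (M * q)))) ∈ B.O := by
    rw [heq]
    exact h
  refine ⟨hmem, ?_⟩
  show B.red ⟨wq M q hq.out hqM ((arithmeticGalois (modularFunctionFieldFull (M * q)) σ *
      wqAut hqM) • (y : ↥(modularFunctionFieldBar (M * q)))), hmem⟩ = _
  rw [frobOne_apply, ← hred]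
  exact red_congr B.red hmem h heq

include hσ in
/-- **ring side, second branch into the first** -/
theorem swap_smul₂₁
    (B : Branch A (residue ↥A) ↥(modularFunctionFieldBar (M * q))
      ↥(modularFunctionFieldFullC (ResidueField ↥A) M))
    (hO : B.O = V1X0 hA hqM)
    (hα : ∀ c : ↥(gaussDatum M A hA hqM).O,
      heckeAlphaBar Kb M q (c : ↥(modularFunctionFieldBar M)) ∈ B.O)
    (hredα : ∀ c : ↥(gaussDatum M A hA hqM).O,
      B.red ⟨heckeAlphaBar Kb M q (c : ↥(modularFunctionFieldBar M)), hα c⟩ =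
        (gaussDatum M A hA hqM).red c)
    (y : ↥(branchComap B (wq M q hq.out hqM)).O) :
    ∃ h : (arithmeticGalois (modularFunctionFieldFull (M * q)) σ * wqAut hqM) •
        (y : ↥(modularFunctionFieldBar (M * q))) ∈ B.O,
      B.red ⟨_, h⟩ = frobOne (q := q) ((branchComap B (wq M q hq.out hqM)).red y) := by
  have hy : wq M q hq.out hqM (y : ↥(modularFunctionFieldBar (M * q))) ∈ B.O := y.2
  obtain ⟨h, hred⟩ := branch_smul₁ hA hqM B hO hα hredα ⟨σ, hσ.mem_decompositionSubgroup⟩ ⟨_, hy⟩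
  rw [resAut_eq_frobAut A q hσ] at hred
  have heq := swap_smul_apply hqM σ (y : ↥(modularFunctionFieldBar (M * q)))
  have hmem : (arithmeticGalois (modularFunctionFieldFull (M * q)) σ * wqAut hqM) •
      (y : ↥(modularFunctionFieldBar (M * q))) ∈ B.O := by
    rw [heq]
    exact h
  refine ⟨hmem, ?_⟩
  rw [frobOne_apply]
  show _ = coeffRingAut (ResidueField ↥A) M (frobAut (ResidueField ↥A) q) (B.red ⟨_, hy⟩)
  rw [← hred]
  exact red_congr B.red hmem h heq

/-! #### the place side -/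

section Places

open Fermat.Agent.S34.Generic.Compat Fermat.Agent.S34.Generic.InertiaSp

variable {ι : Type*}
variable (N : GNodalDatum A (residue A) ↥(modularFunctionFieldBar (M * q))
  ↥(modularFunctionFieldFullC (ResidueField A) M)
  ↥(modularFunctionFieldFullC (ResidueField A) M) ι)
variable {r : Place Kb ↥(modularFunctionFieldBar M) →
  Place (ResidueField A) ↥(modularFunctionFieldFullC (ResidueField A) M)}
variable (hr : IsPlaceReductionAlong A (residue A) M r)
variable (hgen : PrincipalGeneratedByIntegral A (residue A) M)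
variable (hα : (heckeAlphaBar Kb M q).toRingHom.IsIntegral)
variable (hβ : (heckeBetaBar Kb M q).toRingHom.IsIntegral)
variable (good : Set (Place (ResidueField A) ↥(modularFunctionFieldFullC (ResidueField A) M)))
variable (hgood : ∀ Q, Fr (ResidueField A) M q Q ∈ good ↔ Q ∈ good)

include hA hr hgen hσ hgood in
/-- `r₁ (g • P) = Fr (r₂ P)` for `g = σ_E ∘ w_q` -/
theorem swap_r₂₁
    (hR1 : N.R1.r = rOne r (restrAlong (heckeAlphaBar Kb M q) hα)
      (restrAlong (heckeBetaBar Kb M q) hβ) (Fr (ResidueField A) M q) good)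
    (hR2 : N.R2 = smoothRedComap N.R1 (wq M q hq.out hqM))
    (P : Place Kb ↥(modularFunctionFieldBar (M * q))) :
    N.R1.r ((arithmeticGalois (modularFunctionFieldFull (M * q)) σ * wqAut hqM) • P) =
      Option.map (Fr (ResidueField A) M q) (N.R2.r P) := by
  have h2 : N.R2.r P = N.R1.r (wqAut hqM • P) := by
    rw [hR2]
    rfl
  rw [h2, mul_smul, hR1]
  exact Fermat.Agent.S35.FrobSp.rOne_smul_frobenius hA hqM hr hgen hα hβ hσ good hgood _

include hA hr hgen hσ hgood in
/-- `r₂ (g • P) = Fr (r₁ P)` for `g = σ_E ∘ w_q` -/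
theorem swap_r₁₂
    (hR1 : N.R1.r = rOne r (restrAlong (heckeAlphaBar Kb M q) hα)
      (restrAlong (heckeBetaBar Kb M q) hβ) (Fr (ResidueField A) M q) good)
    (hR2 : N.R2 = smoothRedComap N.R1 (wq M q hq.out hqM))
    (P : Place Kb ↥(modularFunctionFieldBar (M * q))) :
    N.R2.r ((arithmeticGalois (modularFunctionFieldFull (M * q)) σ * wqAut hqM) • P) =
      Option.map (Fr (ResidueField A) M q) (N.R1.r P) := by
  have h2 : ∀ P', N.R2.r P' = N.R1.r (wqAut hqM • P') := by
    intro P'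
    rw [hR2]
    rfl
  have h1 : N.R1.r P = N.R2.r (wqAut hqM • P) := by
    rw [h2, wqAut_smul_smul]
  have hR2r : N.R2.r = rOne r (restrAlong (heckeBetaBar Kb M q) hβ)
      (restrAlong (heckeAlphaBar Kb M q) hα) (Fr (ResidueField A) M q) good := by
    rw [hR2]
    exact Fermat.Agent.S35.FrobSp.smoothRedComap_r_eq_rOne_swap r (heckeAlphaBar Kb M q)
      (heckeBetaBar Kb M q) hα hβ (wq M q hq.out hqM) (fun g => wq_alpha hq.out hqM g)
      (fun g => wq_beta hq.out hqM g) (Fr (ResidueField A) M q) good N.R1 hR1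
  rw [h1, mul_smul, hR2r]
  exact Fermat.Agent.S35.FrobSp.rOne_swap_smul_frobenius hA hqM hr hgen hα hβ hσ good hgood _

include hA hr hgen hσ hgood in
/-- **`hr12` of `principal_of_swap`** for `g = σ_E ∘ w_q`. -/
theorem hr12_of_frobenius
    (hR1 : N.R1.r = rOne r (restrAlong (heckeAlphaBar Kb M q) hα)
      (restrAlong (heckeBetaBar Kb M q) hβ) (Fr (ResidueField A) M q) good)
    (hR2 : N.R2 = smoothRedComap N.R1 (wq M q hq.out hqM))
    (hAdm : ∀ S1 S2, N.Adm S1 S2 → ∀ Q ∈ S1, Fr (ResidueField A) M q Q ∈ S2) :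
    ∀ S1 S2, N.Adm S1 S2 → ∀ P : Place Kb ↥(modularFunctionFieldBar (M * q)),
      (∃ Q ∈ S1, N.R1.r ((arithmeticGalois (modularFunctionFieldFull (M * q)) σ *
          wqAut hqM)⁻¹ • P) = some Q) → ∃ Q ∈ S2, N.R2.r P = some Q := by
  rintro S1 S2 hS P ⟨Q, hQ, hQr⟩
  refine ⟨Fr (ResidueField A) M q Q, hAdm S1 S2 hS Q hQ, ?_⟩
  have h := swap_r₁₂ hA hqM hσ N hr hgen hα hβ good hgood hR1 hR2
    ((arithmeticGalois (modularFunctionFieldFull (M * q)) σ * wqAut hqM)⁻¹ • P)
  rw [smul_inv_smul, hQr] at h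
  exact h

include hA hr hgen hσ hgood in
/-- **`hr21` of `principal_of_swap`** for `g = σ_E ∘ w_q`. -/
theorem hr21_of_frobenius
    (hR1 : N.R1.r = rOne r (restrAlong (heckeAlphaBar Kb M q) hα)
      (restrAlong (heckeBetaBar Kb M q) hβ) (Fr (ResidueField A) M q) good)
    (hR2 : N.R2 = smoothRedComap N.R1 (wq M q hq.out hqM))
    (hAdm : ∀ S1 S2, N.Adm S1 S2 → ∀ Q ∈ S2, Fr (ResidueField A) M q Q ∈ S1) :
    ∀ S1 S2, N.Adm S1 S2 → ∀ P : Place Kb ↥(modularFunctionFieldBar (M * q)),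
      (∃ Q ∈ S2, N.R2.r ((arithmeticGalois (modularFunctionFieldFull (M * q)) σ *
          wqAut hqM)⁻¹ • P) = some Q) → ∃ Q ∈ S1, N.R1.r P = some Q := by
  rintro S1 S2 hS P ⟨Q, hQ, hQr⟩
  refine ⟨Fr (ResidueField A) M q Q, hAdm S1 S2 hS Q hQ, ?_⟩
  have h := swap_r₂₁ hA hqM hσ N hr hgen hα hβ good hgood hR1 hR2
    ((arithmeticGalois (modularFunctionFieldFull (M * q)) σ * wqAut hqM)⁻¹ • P)
  rw [smul_inv_smul, hQr] at h
  exact h

end Places

end X0

/-! ### The unsquared relation in divisor language and in function language -/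

section Main

open Fermat.Agent.S37.Gauss.Datum
open Fermat.Agent.S34.Generic.SmoothRedOfGeneric Fermat.Agent.S34.Generic.RestrAlong
open Fermat.Agent.S34.WqGalois Fermat.Agent.S34.FrobK Fermat.Agent.S34.DecompX0
open Fermat.Agent.S34.EulerX0

variable {q : ℕ} [hq : Fact q.Prime] {M : ℕ} [NeZero M] {A : ValuationSubring Kb} [NeZero q]
variable [CharP (ResidueField ↥A) q] [PerfectField (ResidueField ↥A)]

set_option maxHeartbeats 1600000 in
/-- **`g • D + q • D` is principal** (`g = σ_E ∘ w_q`), from the nodal datum of `X₀(M q)`, its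
structural facts and the node relation `e₁ = Fr e₂`. -/
theorem principal_of_ext {p : ℕ} (hp : p.Prime) (hpq : p ≠ q)
    {hA : A.LiesOverPrime q} {hqM : ¬ q ∣ M} (X : X0Datum hA hqM) (E : X0Ext X)
    (hnode : ∀ e, Fr (ResidueField ↥A) M q (X.N.e2 e) = X.N.e1 e)
    {σ : Kb ≃ₐ[ℚ] Kb} (hσ : A.IsFrobeniusAt σ q) (e : ℕ)
    (u : ↥(modularFunctionFieldBar (M * q)))
    (D : Divisor Kb ↥(modularFunctionFieldBar (M * q))) (hu0 : u ≠ 0)
    (h1 : IsOneUnit (V1X0 hA hqM) u) (h2 : IsOneUnit (V2X0 hA hqM) u)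
    (hD0 : Divisor.degree D = 0)
    (hD : ∀ w : Place Kb ↥(modularFunctionFieldBar (M * q)),
      w.ord u = ((p ^ e : ℕ) : ℤ) * D w) :
    (arithmeticGalois (modularFunctionFieldFull (M * q)) σ * wqAut hqM) • D + q • D ∈
      Divisor.principal (K := Kb) (F := ↥(modularFunctionFieldBar (M * q))) := by
  haveI : NeZero (M * q) := ⟨Nat.mul_ne_zero (NeZero.ne M) (NeZero.ne q)⟩
  haveI := Fermat.Agent.S18.A.Instances.hasPrincipalDivisors_bar (M * q)
  haveI := Fermat.Agent.S18.A.Instances.hasPrincipalDivisors_bar M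
  haveI := Fermat.Agent.S37.ReductionInputs.hasPrincipalDivisors_Fk A M
  have hNC' : (X.g : ℤ) + 1 ≤ X.gk + X.gk + Fintype.card {b // b ∈ X.S} := by
    rw [Fintype.card_coe]
    exact X.hNC
  have hcard := Fermat.Agent.S34.NodalCoreX0.one_le_card_of_nc hA hqM X.HL X.Hk hNC'
  haveI : Nonempty {b // b ∈ X.S} := Fintype.card_pos_iff.mp (by omega)
  have hg : X.g ≤ X.gk + (X.gk + Fintype.card {b // b ∈ X.S} - 1) := by omega
  -- the one-unit `u`
  have h1' : IsOneUnit X.N.R1.O u := by rw [X.O1_eq]; exact h1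
  have h2' : IsOneUnit X.N.R2.O u := by rw [X.O2_eq]; exact h2
  obtain ⟨hu1, hred1⟩ := red_eq_one_of_isOneUnit X.N.R1.toBranch h1'
  obtain ⟨hu2, hred2⟩ := red_eq_one_of_isOneUnit X.N.R2.toBranch h2'
  -- the ring side
  have hg12 : ∀ y : X.N.R1.O,
      ∃ h : (arithmeticGalois (modularFunctionFieldFull (M * q)) σ * wqAut hqM) •
          ((y : X.N.R1.O) : ↥(modularFunctionFieldBar (M * q))) ∈ X.N.R2.O,
        X.N.R2.red ⟨_, h⟩ = frobOne (q := q) (X.N.R1.red y) := by
    have key : ∀ (R2 : SmoothRed A (residue ↥A) ↥(modularFunctionFieldBar (M * q))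
        ↥(modularFunctionFieldFullC (ResidueField ↥A) M)),
        R2 = smoothRedComap X.N.R1 (wq M q hq.out hqM) → ∀ y : X.N.R1.O,
        ∃ h : (arithmeticGalois (modularFunctionFieldFull (M * q)) σ * wqAut hqM) •
            ((y : X.N.R1.O) : ↥(modularFunctionFieldBar (M * q))) ∈ R2.O,
          R2.red ⟨_, h⟩ = frobOne (q := q) (X.N.R1.red y) := by
      rintro _ rfl y
      exact swap_smul₁₂ hA hqM hσ X.N.R1.toBranch X.O1_eq E.alpha_mem E.red_alpha y
    exact key X.N.R2 E.R2_eq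
  have hg21 : ∀ y : X.N.R2.O,
      ∃ h : (arithmeticGalois (modularFunctionFieldFull (M * q)) σ * wqAut hqM) •
          ((y : X.N.R2.O) : ↥(modularFunctionFieldBar (M * q))) ∈ X.N.R1.O,
        X.N.R1.red ⟨_, h⟩ = frobOne (q := q) (X.N.R2.red y) := by
    have key : ∀ (R2 : SmoothRed A (residue ↥A) ↥(modularFunctionFieldBar (M * q))
        ↥(modularFunctionFieldFullC (ResidueField ↥A) M)),
        R2 = smoothRedComap X.N.R1 (wq M q hq.out hqM) → ∀ y : R2.O,
        ∃ h : (arithmeticGalois (modularFunctionFieldFull (M * q)) σ * wqAut hqM) •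
            ((y : R2.O) : ↥(modularFunctionFieldBar (M * q))) ∈ X.N.R1.O,
          X.N.R1.red ⟨_, h⟩ = frobOne (q := q) (R2.red y) := by
      rintro _ rfl y
      exact swap_smul₂₁ hA hqM hσ X.N.R1.toBranch X.O1_eq E.alpha_mem E.red_alpha y
    exact key X.N.R2 E.R2_eq
  -- the nodes
  have e12 : ∀ e, Fr (ResidueField ↥A) M q (X.N.e1 e) = X.N.e2 e := fun e => by
    rw [← hnode e]
    exact E.e2_fix e
  -- the admissible sets
  have hAdm12 : ∀ S1 S2, X.N.Adm S1 S2 → ∀ Q ∈ S1, Fr (ResidueField ↥A) M q Q ∈ S2 := by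
    intro S1 S2 hS Q hQ
    have hadm := E.adm S1 S2 hS
    rw [← hadm.1]
    exact (hadm.2.2.2 Q).mpr hQ
  have hAdm21 : ∀ S1 S2, X.N.Adm S1 S2 → ∀ Q ∈ S2, Fr (ResidueField ↥A) M q Q ∈ S1 := by
    intro S1 S2 hS Q hQ
    have hadm := E.adm S1 S2 hS
    rw [← hadm.1] at hQ
    exact (hadm.2.2.2 Q).mpr hQ
  have hgenI := Fermat.Agent.S34.Generic.InertiaSp.principalGeneratedByIntegral_X0 hA hqM
  exact Fermat.Agent.S43.T1.Frob.GlueSwap.principal_of_swap X.N
    (fun P => Fermat.Agent.S24.Ord.deg_eq_one (Fermat.Agent.S24.Degree.isFF (M * q)) P)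
    (fun e => X.Hk.deg_one _) (fun e => X.Hk.deg_one _) X.adm_finite
    residue_surjective (p ^ e) (Fermat.Agent.S34.NodalCoreX0.natCast_pow_ne_zero hA hp hpq e)
    X.x1 (Fermat.Agent.S34.NodalCoreX0.finite_not_simple_of_eq_jk X.hx1)
    X.x2 (Fermat.Agent.S34.NodalCoreX0.finite_not_simple_of_eq_jk X.hx2)
    (Fermat.Agent.S18.NonSpecialAdapter.riemannGe_of_riemannHyp X.HL hg)
    (Fermat.Agent.S34.NodalRigidOfRiemann.nodalRigid X.Hk X.Hk X.N.e2 X.e2_injective)
    X.Pstar X.Qstar X.hQstar X.hstar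
    (arithmeticGalois (modularFunctionFieldFull (M * q)) σ * wqAut hqM) q hq.out.pos
    (frobOne (q := q) (M := M) (A := A)) (frobOne (q := q) (M := M) (A := A))
    hg12 (mem_of_smul_mem_swap X.N.R2.toBranch X.N.R1.toBranch _ _ hg12)
    hg21 (mem_of_smul_mem_swap X.N.R1.toBranch X.N.R2.toBranch _ _ hg21)
    (fun e z c h => hasValue_frobOne _ _ (e12 e) z c h)
    (fun e z c h => hasValue_frobOne _ _ (hnode e) z c h)
    (hr12_of_frobenius hA hqM hσ X.N E.hr hgenI E.hα E.hβ E.good E.hgood E.R1_r E.R2_eq hAdm12)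
    (hr21_of_frobenius hA hqM hσ X.N E.hr hgenI E.hα E.hβ E.good E.hgood E.R1_r E.R2_eq hAdm21)
    hu1 hu2 hred1 hred2 D hD0 hD

end Main

end Fermat.Agent.S43.T1.Frob.SwapX0
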