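/-
PROJECT R (S43), block T1, brick (FU), function language, NO HYPOTHESIS LEFT (helper18):
**`Seam.FUZHyp M q p`** for all primes `p ≠ q`:

  for `σ` a Frobenius lift at `A ∣ q` and `u` a one-unit of both Gauss rings of `X₀(M q)` whose
  divisor is divisible by `p ^ k`:   `σ_E u * (w_q u) ^ q = c * h ^ (p ^ k)`.

* `swapZ_of_ext`   : `σ_E (w_q u) * u ^ q = c h ^ (p ^ k)` from `SwapX0.principal_of_ext`;
* `fuz_of_ext`     : the same after applying `w_q` (the literal of `Seam.FUZHyp`);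
* `fuzHyp_of_inputsC`, `fuzHyp_of_generic` : twins of `S35/FrobZX0.frobZHyp_of_inputsC`,
  `S35/FrobZOfGeneric.frobZHyp_of_generic` (the node relation `e₁ = Fr e₂` is `rfl` for main's
  explicit datum `CoreZX0Build.x0DatumOf`);
* `fuzHyp` : `Seam.FUZHyp M q p`, at `S34/CoreZX0.genericX0_all`.
-/
import Fermat.Agent.S34.CoreZX0
import Fermat.Agent.S34.CoreZX0Fix
import Fermat.Agent.S35.FrobZX0
import Fermat.Agent.S43.T1.Frob.SwapX0
import Fermat.Agent.S43.T1.Seam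

set_option autoImplicit false
set_option linter.unusedSectionVars false
set_option linter.unusedVariables false
set_option linter.style.haveILetI false
set_option synthInstance.maxHeartbeats 400000

noncomputable section

namespace Fermat.Agent.S43.T1.Frob.FUZ

open ModularCurve AlgebraicCurve IsLocalRing
open Fermat.Agent.S18.NonSpecial Fermat.Agent.S34.NodalDefs
open Fermat.Agent.S34.Z1X0 Fermat.Agent.S34.Z1Abstract
open Fermat.Agent.S34.CoreZX0Datum Fermat.Agent.S34.CoreZX0Ext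
open Fermat.Agent.S34.WqGalois Fermat.Agent.S34.FrobK Fermat.Agent.S34.EulerX0
open Fermat.Agent.S34.KummerZ
open Fermat.Agent.S43.T1.Frob.SwapX0

local notation "Kb" => AlgebraicClosure ℚ

variable {q : ℕ} [hq : Fact q.Prime] {M : ℕ} [NeZero M] {A : ValuationSubring Kb} [NeZero q]

section Ext

variable [CharP (ResidueField ↥A) q] [PerfectField (ResidueField ↥A)]

/-- **`σ_E (w_q u) * u ^ q = c h ^ (p ^ k)`** from the nodal datum. -/
theorem swapZ_of_ext {p : ℕ} (hp : p.Prime) (hpq : p ≠ q)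
    {hA : A.LiesOverPrime q} {hqM : ¬ q ∣ M} (X : X0Datum hA hqM) (E : X0Ext X)
    (hnode : ∀ e, Fr (ResidueField ↥A) M q (X.N.e2 e) = X.N.e1 e)
    {σ : Kb ≃ₐ[ℚ] Kb} (hσ : A.IsFrobeniusAt σ q) (k : ℕ)
    (u : ↥(modularFunctionFieldBar (M * q))) (hu : Hn (K := Kb) (p ^ k) u)
    (h1 : IsOneUnit (V1X0 hA hqM) u) (h2 : IsOneUnit (V2X0 hA hqM) u) :
    ∃ (c : Kb) (h : ↥(modularFunctionFieldBar (M * q))), c ≠ 0 ∧ h ≠ 0 ∧
      (arithmeticGalois (modularFunctionFieldFull (M * q)) σ * wqAut hqM) • u * u ^ q =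
        algebraMap Kb ↥(modularFunctionFieldBar (M * q)) c * h ^ (p ^ k) := by
  haveI : NeZero (M * q) := ⟨Nat.mul_ne_zero (NeZero.ne M) (NeZero.ne q)⟩
  haveI := Fermat.Agent.S18.A.Instances.hasPrincipalDivisors_bar (M * q)
  obtain ⟨D, hD, hdeg⟩ := hu.exists_divisor (pow_ne_zero k hp.ne_zero)
  obtain ⟨h, hh, hdiv⟩ := principal_of_ext hp hpq X E hnode hσ k u D hu.1 h1 h2 hdeg hD
  obtain ⟨c, hc, he⟩ := mul_pow_eq_const_mul_pow_of_principal
    (Fermat.Agent.S34.CoreZX0OfPrincipal.exists_const_of_ord_eq_zero (M * q))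
    (arithmeticGalois (modularFunctionFieldFull (M * q)) σ * wqAut hqM) (p ^ k) q hu.1 hD hh hdiv
  exact ⟨c, h, hc, hh, he⟩

/-- **the literal of `Seam.FUZHyp` at one place**: `σ_E u * (w_q u) ^ q = c h ^ (p ^ k)`. -/
theorem fuz_of_ext {p : ℕ} (hp : p.Prime) (hpq : p ≠ q)
    {hA : A.LiesOverPrime q} {hqM : ¬ q ∣ M} (X : X0Datum hA hqM) (E : X0Ext X)
    (hnode : ∀ e, Fr (ResidueField ↥A) M q (X.N.e2 e) = X.N.e1 e)
    {σ : Kb ≃ₐ[ℚ] Kb} (hσ : A.IsFrobeniusAt σ q) (k : ℕ)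
    (u : ↥(modularFunctionFieldBar (M * q))) (hu : Hn (K := Kb) (p ^ k) u)
    (h1 : IsOneUnit (V1X0 hA hqM) u) (h2 : IsOneUnit (V2X0 hA hqM) u) :
    ∃ (c : Kb) (h : ↥(modularFunctionFieldBar (M * q))), c ≠ 0 ∧ h ≠ 0 ∧
      arithmeticGalois (modularFunctionFieldFull (M * q)) σ • u *
          (wq M q hq.out hqM u) ^ q =
        algebraMap Kb ↥(modularFunctionFieldBar (M * q)) c * h ^ (p ^ k) := by
  obtain ⟨c, h, hc, hh, he⟩ := swapZ_of_ext hp hpq X E hnode hσ k u hu h1 h2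
  refine ⟨c, wq M q hq.out hqM h, hc, (map_ne_zero _).mpr hh, ?_⟩
  have h3 := congrArg (wq M q hq.out hqM) he
  rw [map_mul, map_pow, wq_swap_smul, map_mul, map_pow, AlgEquiv.commutes] at h3
  exact h3

end Ext

/-- **`Seam.FUZHyp M q p` from the structural facts of the nodal data + the node relation.** -/
theorem fuzHyp_of_ext {p : ℕ} (hp : p.Prime) (hpq : p ≠ q)
    (H : ∀ (A : ValuationSubring Kb) (hA : A.LiesOverPrime q) (hqM : ¬ q ∣ M)
      [CharP (ResidueField ↥A) q] [PerfectField (ResidueField ↥A)],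
      ∃ D : X0Datum (A := A) hA hqM, Nonempty (X0Ext D) ∧
        ∀ e, Fr (ResidueField ↥A) M q (D.N.e2 e) = D.N.e1 e) :
    Fermat.Agent.S43.T1.Seam.FUZHyp M q p := by
  intro A hA hqM σ hσ k u hu h1 h2
  haveI := Fermat.Agent.S18.ResidueBasics.charP_residueField A hA
  haveI : IsAlgClosed (ResidueField ↥A) :=
    Fermat.Agent.S18.ResidueBasics.isAlgClosed_residueField A
  obtain ⟨D, ⟨E⟩, hnode⟩ := H A hA hqM
  exact fuz_of_ext hp hpq D E hnode hσ k u hu h1 h2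

/-- **`Seam.FUZHyp M q p` from the producers' outputs** (twin of
`S35/FrobZX0.frobZHyp_of_inputsC`, same hypothesis). -/
theorem fuzHyp_of_inputsC {p : ℕ} (hp : p.Prime) (hpq : p ≠ q)
    (HH : ∀ (A : ValuationSubring Kb) (hA : A.LiesOverPrime q) (hqM : ¬ q ∣ M)
      [CharP (ResidueField ↥A) q] [PerfectField (ResidueField ↥A)],
      ∃ (gL gk : ℕ) (H : Fermat.Agent.S37.Deuring.Core.Hyp
          (Fermat.Agent.S37.Gauss.Datum.gaussDatum M A hA hqM) gL gk)
        (X : Fermat.Agent.S34.CoreZX0Assembly.Inputs hA hqM H)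
        (Y : Fermat.Agent.S34.CoreZX0Build.NodesC X),
        ∀ b ∈ Y.S, Fr (ResidueField ↥A) M q (Fr (ResidueField ↥A) M q b) = b) :
    Fermat.Agent.S43.T1.Seam.FUZHyp M q p := by
  refine fuzHyp_of_ext hp hpq fun A hA hqM _ _ => ?_
  obtain ⟨gL, gk, H, X, Y, hfix⟩ := HH A hA hqM
  exact ⟨Fermat.Agent.S34.CoreZX0Build.x0DatumOf X Y,
    ⟨Fermat.Agent.S35.FrobZX0.x0ExtOf X Y hfix⟩, fun e => rfl⟩

open Fermat.Agent.S34.CoreZX0Assembly Fermat.Agent.S34.CoreZX0Build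
  Fermat.Agent.S34.CoreZX0OfGeneric Fermat.Agent.S34.CoreZX0Fix
  Fermat.Agent.S37.Deuring.Core Fermat.Agent.S37.Gauss.Datum in
set_option maxHeartbeats 1600000 in
/-- **`Seam.FUZHyp M q p` from `GenericAt` at the good places** (twin of
`S35/FrobZOfGeneric.frobZHyp_of_generic`, same hypothesis). -/
theorem fuzHyp_of_generic {p : ℕ} (hp : p.Prime) (hpq : p ≠ q)
    (hgen : ∀ (A : ValuationSubring Kb) (hA : A.LiesOverPrime q) (hqM : ¬ q ∣ M),
      haveI := Fermat.Agent.S18.ResidueBasics.charP_residueField A hA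
      ∀ (gM : ℕ) (HM : RiemannHyp (ResidueField ↥A)
        ↥(modularFunctionFieldFullC (ResidueField ↥A) M) gM), GenericX0 hA hqM (HX0 hA hqM HM)) :
    Fermat.Agent.S43.T1.Seam.FUZHyp M q p := by
  refine fuzHyp_of_inputsC hp hpq fun A hA hqM _ _ => ?_
  haveI : IsAlgClosed (ResidueField ↥A) :=
    Fermat.Agent.S18.ResidueBasics.isAlgClosed_residueField A
  obtain ⟨gM, HM⟩ := Fermat.Agent.S18.A.RiemannFk.exists_riemannHyp_Fk' (ResidueField ↥A) M
    (Fermat.Agent.S18.B.SeparableFk.isSeparable_jk (ResidueField ↥A) M)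
  obtain ⟨Y, hfix⟩ := exists_nodesX0_fix HM (hgen A hA hqM gM HM)
  exact ⟨gM, gM, HX0 hA hqM HM, inputsX0 (hgen A hA hqM gM HM), Y, fun b hb => (hfix b hb).1⟩

/-- **(FU) in function language, no hypothesis left.** -/
theorem fuzHyp (M q p : ℕ) [NeZero M] [Fact q.Prime] [NeZero q] (hp : p.Prime) (hpq : p ≠ q) :
    Fermat.Agent.S43.T1.Seam.FUZHyp M q p :=
  fuzHyp_of_generic hp hpq (Fermat.Agent.S34.CoreZX0.genericX0_all M q)

end Fermat.Agent.S43.T1.Frob.FUZ
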