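/-
PROJECT R (S43), block T1, brick (FU), class language, NO HYPOTHESIS LEFT (helper18):
**`Hyp.FrobU M q p`** (= helper1's export (FU), consumed by `T1/MazurFrey.mazurFrey_of_two`) for all
primes `p ≠ q`, `q ∤ M`:

  `U := - (w_q)_*` is an involution of `J₀(M q)` commuting with `G_ℚ`, and `Frob_q = q U` on the
  toric part `oneUnit hA hqM (p ^ k)` of every level, for every `A ∣ q` and every Frobenius lift.

* `smul_add_nsmul_smul_eq_zero_of_kummer` (abstract Kummer glue, sum form): `n D = div u` and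
  `g₁ u * (g₂ u) ^ Q = c h ^ n` give `g₁ [D] + Q • g₂ [D] = 0`;
* `galois_mul_wqAut` : `σ_E` and `w_q` commute as semilinear automorphisms;
* `fuHyp_of_fuzHyp : Seam.FUZHyp M q p → Seam.FUHyp M q p`, `fuHyp`;
* `negWq`, `frobU_of_fuHyp`, **`frobU`**.
-/
import Fermat.Agent.S43.T1.Frob.FUZ

set_option autoImplicit false
set_option linter.unusedSectionVars false
set_option linter.unusedVariables false
set_option linter.style.haveILetI false
set_option synthInstance.maxHeartbeats 400000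

noncomputable section

namespace Fermat.Agent.S43.T1.Frob.FrobU

open ModularCurve AlgebraicCurve
open Fermat.Agent.S34.KummerZ

section Abstract

variable {K F : Type*} [Field K] [Field F] [Algebra K F]

/-- **Kummer glue, sum form.**  If `n D = div u` and `g₁ u * (g₂ u) ^ Q = c * h ^ n`, then
`g₁ [D] + Q • g₂ [D] = 0` in `Pic⁰`. -/
theorem smul_add_nsmul_smul_eq_zero_of_kummer [HasPrincipalDivisors K F]
    (g₁ g₂ : SemilinearAut K F) (n : ℕ) (hn : n ≠ 0) (Q : ℕ)
    (D : Divisor.degZero (K := K) (F := F)) {u : F} (hu : u ≠ 0)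
    (hD : ∀ w : Place K F, w.ord u = (n : ℤ) * (D : Divisor K F) w)
    {c : K} {h : F} (hc : c ≠ 0) (hh : h ≠ 0)
    (h2 : g₁ • u * (g₂ • u) ^ Q = algebraMap K F c * h ^ n) :
    g₁ • Pic0.mk D + Q • (g₂ • Pic0.mk D) = 0 := by
  have hn' : (n : ℤ) ≠ 0 := Int.natCast_ne_zero.mpr hn
  have hgu : ∀ g : SemilinearAut K F, g • u ≠ 0 := by
    intro g h0
    apply hu
    have := congrArg (fun x => g⁻¹ • x) h0
    simpa using this
  obtain ⟨Eh, hEh, hEhdeg⟩ := HasPrincipalDivisors.exists_divisor (K := K) h hh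
  let Dh : Divisor.degZero (K := K) (F := F) := ⟨Eh, Divisor.mem_degZero.mpr hEhdeg⟩
  have hDh : Pic0.mk Dh = 0 := mk_eq_zero_of_isDivOf hh (fun w => hEh w)
  have hsum : SemilinearAut.degZeroSMulHom g₁ D + Q • SemilinearAut.degZeroSMulHom g₂ D = Dh := by
    apply Subtype.ext
    apply Finsupp.ext
    intro w
    have e1 : ∀ g : SemilinearAut K F, w.ord (g • u) = (n : ℤ) * ((SemilinearAut.degZeroSMulHom g D :
        Divisor.degZero (K := K) (F := F)) : Divisor K F) w := by
      intro g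
      rw [ord_smul_eq, hD, SemilinearAut.coe_degZeroSMulHom, SemilinearAut.divisor_smul_apply]
    have hcF : algebraMap K F c ≠ 0 := (_root_.map_ne_zero (algebraMap K F)).mpr hc
    have hhn : h ^ n ≠ 0 := pow_ne_zero n hh
    have e0 := congrArg w.ord h2
    rw [w.ord_mul (hgu g₁) (pow_ne_zero Q (hgu g₂)), Fermat.Agent.S34.KummerZ.ord_pow,
      w.ord_mul hcF hhn, Fermat.Agent.S34.KummerZ.ord_algebraMap w hc,
      Fermat.Agent.S34.KummerZ.ord_pow, e1 g₁, e1 g₂, ← hEh w] at e0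
    have e2 : ((SemilinearAut.degZeroSMulHom g₁ D + Q • SemilinearAut.degZeroSMulHom g₂ D :
        Divisor.degZero (K := K) (F := F)) : Divisor K F) w
        = ((SemilinearAut.degZeroSMulHom g₁ D : Divisor.degZero (K := K) (F := F)) :
            Divisor K F) w + (Q : ℤ) *
          ((SemilinearAut.degZeroSMulHom g₂ D : Divisor.degZero (K := K) (F := F)) :
            Divisor K F) w := by
      rw [AddSubgroup.coe_add, AddSubgroup.coe_nsmul, Finsupp.add_apply, Finsupp.smul_apply,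
        nsmul_eq_mul]
    rw [e2]
    show _ = Eh w
    have e3 : (n : ℤ) * (((SemilinearAut.degZeroSMulHom g₁ D :
        Divisor.degZero (K := K) (F := F)) : Divisor K F) w + (Q : ℤ) *
          ((SemilinearAut.degZeroSMulHom g₂ D : Divisor.degZero (K := K) (F := F)) :
            Divisor K F) w) = (n : ℤ) * Eh w := by
      linarith
    exact mul_left_cancel₀ hn' e3
  rw [SemilinearAut.pic0_smul_mk, SemilinearAut.pic0_smul_mk]
  have : Pic0.mk (SemilinearAut.degZeroSMulHom g₁ D) +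
      Q • Pic0.mk (SemilinearAut.degZeroSMulHom g₂ D) =
      Pic0.mk (SemilinearAut.degZeroSMulHom g₁ D + Q • SemilinearAut.degZeroSMulHom g₂ D) := rfl
  rw [this, hsum, hDh]

end Abstract

section X0

open Fermat.Agent.S34.Z1X0 Fermat.Agent.S34.Z1Abstract
open Fermat.Agent.S33.KP.OneUnit Fermat.Agent.S34.EulerX0 Fermat.Agent.S34.WqGalois
open Fermat.Agent.S43.T1.Seam Fermat.Agent.S43.T1.Frob.SwapX0

local notation "Kb" => AlgebraicClosure ℚ
local notation "GQ" => (AlgebraicClosure ℚ ≃ₐ[ℚ] AlgebraicClosure ℚ)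

variable {q : ℕ} [hq : Fact q.Prime] {M : ℕ} [NeZero M] [NeZero q]

/-- `σ_E` and `w_q` commute (`w_q` is defined over `ℚ`) -/
theorem galois_mul_wqAut (hqM : ¬ q ∣ M) (σ : GQ) :
    arithmeticGalois (modularFunctionFieldFull (M * q)) σ * wqAut hqM =
      wqAut hqM * arithmeticGalois (modularFunctionFieldFull (M * q)) σ := by
  apply Subtype.ext
  apply Prod.ext
  · refine RingEquiv.ext fun x => ?_
    show arithmeticGalois (modularFunctionFieldFull (M * q)) σ • (wqAut hqM • x) =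
      wqAut hqM • (arithmeticGalois (modularFunctionFieldFull (M * q)) σ • x)
    rw [wqAut_smul, wqAut_smul, smul_wq]
  · show SemilinearAut.baseAut (arithmeticGalois (modularFunctionFieldFull (M * q)) σ * wqAut hqM) =
      SemilinearAut.baseAut (wqAut hqM * arithmeticGalois (modularFunctionFieldFull (M * q)) σ)
    rw [SemilinearAut.baseAut_mul, SemilinearAut.baseAut_mul]
    show _ * (1 : Kb ≃+* Kb) = (1 : Kb ≃+* Kb) * _
    rw [mul_one, one_mul]

/-- **(FU) in class language from (FU) in function language.** -/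
theorem fuHyp_of_fuzHyp {p : ℕ} (hp : p ≠ 0) (H : FUZHyp M q p) : FUHyp M q p := by
  intro A hA hqM σ hσ k y hy
  haveI : NeZero (M * q) := ⟨Nat.mul_ne_zero (NeZero.ne M) (NeZero.ne q)⟩
  haveI := Fermat.Agent.S18.A.Instances.hasPrincipalDivisors_bar (M * q)
  obtain ⟨D, u, rfl, hu, h1, h2, hD⟩ := exists_strict_of_mem_oneUnit hA hqM hy
  have hHn : Hn (K := Kb) (p ^ k) u := ⟨hu, fun w => ⟨_, hD w⟩⟩
  obtain ⟨c, h, hc, hh, he⟩ := H A hA hqM σ hσ k u hHn h1 h2
  have key := smul_add_nsmul_smul_eq_zero_of_kummer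
    (arithmeticGalois (modularFunctionFieldFull (M * q)) σ) (wqAut hqM) (p ^ k)
    (pow_ne_zero k hp) q D hu hD hc hh he
  rw [galois_smul_pic0_def]
  exact key

/-- **(FU) in class language, no hypothesis left.** -/
theorem fuHyp (M q p : ℕ) [NeZero M] [Fact q.Prime] [NeZero q] (hp : p.Prime) (hpq : p ≠ q) :
    FUHyp M q p :=
  fuHyp_of_fuzHyp hp.ne_zero (Fermat.Agent.S43.T1.Frob.FUZ.fuzHyp M q p hp hpq)

variable [NeZero (M * q)]

/-- `U = - (w_q)_*` on `J₀(M q)` -/
def negWq (hqM : ¬ q ∣ M) : JZero (M * q) →+ JZero (M * q) :=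
  - DistribSMul.toAddMonoidHom (JZero (M * q)) (wqAut hqM)

theorem negWq_apply (hqM : ¬ q ∣ M) (y : JZero (M * q)) : negWq hqM y = - (wqAut hqM • y) := rfl

theorem negWq_negWq (hqM : ¬ q ∣ M) (y : JZero (M * q)) : negWq hqM (negWq hqM y) = y := by
  rw [negWq_apply, negWq_apply, smul_neg, neg_neg, wqAut_smul_smul]

theorem negWq_galois (hqM : ¬ q ∣ M) (τ : GQ) (y : JZero (M * q)) :
    negWq hqM (τ • y) = τ • negWq hqM y := by
  rw [negWq_apply, negWq_apply, smul_neg, galois_smul_pic0_def, galois_smul_pic0_def, ← mul_smul,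
    ← mul_smul, galois_mul_wqAut]

/-- **`Hyp.FrobU` from (FU) in class language.** -/
theorem frobU_of_fuHyp {p : ℕ} (hqM : ¬ q ∣ M) (H : FUHyp M q p) :
    Fermat.Agent.S43.T1.Hyp.FrobU M q p := by
  refine ⟨negWq hqM, negWq_negWq hqM, negWq_galois hqM, ?_⟩
  intro A hA hqM' σ hσ k y hy
  have h := H A hA hqM' σ hσ k y hy
  rw [negWq_apply, neg_nsmul]
  exact eq_neg_of_add_eq_zero_left h

/-- **(FU) = `Hyp.FrobU M q p`, NO HYPOTHESIS LEFT** (`p ≠ q` primes, `q ∤ M`). -/
theorem frobU (M q p : ℕ) [NeZero M] [Fact q.Prime] [NeZero q] [NeZero (M * q)] (hp : p.Prime)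
    (hqM : ¬ q ∣ M) (hqp : q ≠ p) : Fermat.Agent.S43.T1.Hyp.FrobU M q p :=
  frobU_of_fuHyp hqM (fuHyp M q p hp (Ne.symm hqp))

end X0

end Fermat.Agent.S43.T1.Frob.FrobU
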